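/-
TR / E-side (helper68), part 2: the `p`-torsion of the kernel of reduction `E1` of a
Legendre-type curve with multiplicative reduction, via the approximate character `φ`.

For `R ∈ E1[p]`: `φ(R)^p ≡ 1` mod `b`, so `φ(R)` is close to a unique `p`-th root of unity
`ζ^j`; `R ↦ j` is additive and injective.  Consequences: `E1[p]` is cyclic, and the parameter
`z = x / y` of a nonzero point of `E1[p]` has exactly the valuation of `ζ - 1`.
-/
import Fermat.Agent.TR.ESide.Line.Phi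

set_option autoImplicit false

namespace Fermat.Agent.TR.ESide.Line

open WeierstrassCurve WeierstrassCurve.Affine Polynomial
open Fermat.Agent.S05

variable {K : Type*} [Field K] {Γ₀ : Type*} [LinearOrderedCommGroupWithZero Γ₀]

/-- The cyclotomic facts used on the E-side. -/
structure CycHyp (v : Valuation K Γ₀) (p : ℕ) (ζ : K) : Prop where
  prime : p.Prime
  three : 3 ≤ p
  prim : IsPrimitiveRoot ζ p
  pow : ∀ m : ℕ, ¬ p ∣ m → v (ζ ^ m - 1) = v (ζ - 1)
  cyc : v (ζ - 1) ^ (p - 1) = v (p : K)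
  lt : v (p : K) < 1

namespace CycHyp

variable {v : Valuation K Γ₀} {p : ℕ} {ζ : K} (H : CycHyp v p ζ)

include H

theorem val_zeta : v ζ = 1 := by
  have h1 : v ζ ^ p = 1 := by rw [← map_pow, H.prim.pow_eq_one, map_one]
  exact (pow_eq_one_iff.mp h1).resolve_right H.prime.ne_zero

theorem val_zeta_pow (j : ℕ) : v (ζ ^ j) = 1 := by rw [map_pow, H.val_zeta, one_pow]

theorem zeta_ne_one : ζ ≠ 1 := H.prim.ne_one H.prime.one_lt

theorem pi_ne_zero : v (ζ - 1) ≠ 0 :=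
  (Valuation.ne_zero_iff v).mpr (sub_ne_zero.mpr H.zeta_ne_one)

theorem pi_pos : 0 < v (ζ - 1) := zero_lt_iff.mpr H.pi_ne_zero

theorem pi_lt_one : v (ζ - 1) < 1 := by
  by_contra hcon
  have h1 : 1 ≤ v (ζ - 1) ^ (p - 1) := one_le_pow₀ (not_lt.mp hcon)
  rw [H.cyc] at h1
  exact absurd H.lt (not_lt.mpr h1)

theorem p_lt_pi : v (p : K) < v (ζ - 1) := by
  have h2 : 2 ≤ p - 1 := by have := H.three; omega
  rw [← H.cyc]
  calc v (ζ - 1) ^ (p - 1) ≤ v (ζ - 1) ^ 2 :=
        pow_le_pow_of_le_one zero_le H.pi_lt_one.le h2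
    _ = v (ζ - 1) * v (ζ - 1) := sq _
    _ < v (ζ - 1) * 1 := mul_lt_mul_of_pos_left H.pi_lt_one H.pi_pos
    _ = v (ζ - 1) := mul_one _

theorem p_pos : 0 < v (p : K) := by
  rw [← H.cyc]
  exact pow_pos H.pi_pos _

/-- `μ - 1` has the valuation of `ζ - 1` for every `p`-th root of unity `μ ≠ 1`. -/
theorem val_root_sub_one {μ : K} (hμ : μ ^ p = 1) (hμ1 : μ ≠ 1) : v (μ - 1) = v (ζ - 1) := by
  have : NeZero p := ⟨H.prime.ne_zero⟩
  obtain ⟨i, hi, rfl⟩ := H.prim.eq_pow_of_pow_eq_one hμ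
  refine H.pow i fun hdvd => hμ1 ?_
  obtain ⟨k, rfl⟩ := hdvd
  rw [pow_mul, H.prim.pow_eq_one, one_pow]

theorem val_pow_sub_pow {i j : ℕ} (h : ζ ^ i ≠ ζ ^ j) : v (ζ ^ i - ζ ^ j) = v (ζ - 1) := by
  have hζ0 : ζ ^ j ≠ 0 := pow_ne_zero _ (H.prim.ne_zero H.prime.ne_zero)
  have e : ζ ^ i - ζ ^ j = ζ ^ j * (ζ ^ i / ζ ^ j - 1) := by field_simp
  have hμ : (ζ ^ i / ζ ^ j) ^ p = 1 := by
    rw [div_pow, ← pow_mul, ← pow_mul, mul_comm i, mul_comm j, pow_mul, pow_mul,
      H.prim.pow_eq_one, one_pow, one_pow, div_one]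
  have hμ1 : ζ ^ i / ζ ^ j ≠ 1 := by
    intro h1
    exact h ((div_eq_one_iff_eq hζ0).mp h1)
  rw [e, map_mul, H.val_zeta_pow, one_mul, H.val_root_sub_one hμ hμ1]

omit H in
/-- `u^p − 1` as a product over the `p`-th roots of unity. -/
theorem pow_sub_one_eq_prod {p : ℕ} (hp : 0 < p) {ζ : K} (hζ : IsPrimitiveRoot ζ p) (u : K) :
    u ^ p - 1 = ∏ μ ∈ nthRootsFinset p (1 : K), (u - μ) := by
  have h := congrArg (Polynomial.eval u) (X_pow_sub_one_eq_prod hp hζ)
  simpa [Polynomial.eval_prod] using h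

/-- If `u^p` is close to `1` then `u` is close to a `p`-th root of unity. -/
theorem exists_near {u : K} (hu : v (u ^ p - 1) < v (ζ - 1) ^ p) :
    ∃ j : ℕ, v (u - ζ ^ j) < v (ζ - 1) := by
  have : NeZero p := ⟨H.prime.ne_zero⟩
  by_contra hcon
  push Not at hcon
  have h1 : v (ζ - 1) ^ p ≤ v (u ^ p - 1) := by
    rw [pow_sub_one_eq_prod H.prime.pos H.prim u, map_prod]
    have hcard := H.prim.card_nthRootsFinset
    calc v (ζ - 1) ^ p = v (ζ - 1) ^ (nthRootsFinset p (1 : K)).card := by rw [hcard]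
      _ ≤ ∏ μ ∈ nthRootsFinset p (1 : K), v (u - μ) := by
          refine Finset.pow_card_le_prod _ _ _ fun μ hμ => ?_
          have hμp : μ ^ p = 1 := (mem_nthRootsFinset H.prime.pos (1 : K)).mp hμ
          obtain ⟨i, -, rfl⟩ := H.prim.eq_pow_of_pow_eq_one hμp
          exact hcon i
  exact absurd hu (not_lt.mpr h1)

/-- If `u` is close to `1` then `v (u^p − 1) = v (u − 1) v p`. -/
theorem val_pow_sub_one {u : K} (hu : v (u - 1) < v (ζ - 1)) :
    v (u ^ p - 1) = v (u - 1) * v (p : K) := by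
  classical
  have h1 : (1 : K) ∈ nthRootsFinset p (1 : K) :=
    (mem_nthRootsFinset H.prime.pos (1 : K)).mpr (one_pow _)
  rw [pow_sub_one_eq_prod H.prime.pos H.prim u, map_prod, ← Finset.mul_prod_erase _ _ h1]
  congr 1
  have h2 : ∀ μ ∈ (nthRootsFinset p (1 : K)).erase 1, v (u - μ) = v (ζ - 1) := by
    intro μ hμ
    obtain ⟨hμ1, hμm⟩ := Finset.mem_erase.mp hμ
    have hμp : μ ^ p = 1 := (mem_nthRootsFinset H.prime.pos (1 : K)).mp hμm
    have e : u - μ = (u - 1) - (μ - 1) := by ring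
    rw [e, ← H.val_root_sub_one hμp hμ1]
    apply Valuation.map_sub_eq_of_lt_right
    rw [H.val_root_sub_one hμp hμ1]
    exact hu
  rw [Finset.prod_congr rfl h2, Finset.prod_const, Finset.card_erase_of_mem h1,
    H.prim.card_nthRootsFinset, H.cyc]

/-- Uniqueness of the nearby root of unity. -/
theorem near_unique {u : K} {i j : ℕ} (hi : v (u - ζ ^ i) < v (ζ - 1))
    (hj : v (u - ζ ^ j) < v (ζ - 1)) : ζ ^ i = ζ ^ j := by
  by_contra hne
  have h1 := H.val_pow_sub_pow hne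
  have e : ζ ^ i - ζ ^ j = (u - ζ ^ j) - (u - ζ ^ i) := by ring
  rw [e] at h1
  have h2 : v ((u - ζ ^ j) - (u - ζ ^ i)) < v (ζ - 1) := v.map_sub_lt hj hi
  rw [h1] at h2
  exact lt_irrefl _ h2

end CycHyp

/-- The hypotheses on the curve: Legendre type, multiplicative reduction with `v b < v(p)²`. -/
structure LocHyp (v : Valuation K Γ₀) (W : Affine K) (β : K) (p : ℕ) (ζ : K) : Prop where
  leg : IsLeg W
  a₂ : v W.a₂ = 1
  a₄ : v W.a₄ < v (p : K) ^ 2
  beta : β ^ 2 = W.a₂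
  two : v (2 : K) = 1
  cyc : CycHyp v p ζ

namespace LocHyp

variable {v : Valuation K Γ₀} {W : Affine K} {β : K} {p : ℕ} {ζ : K} (H : LocHyp v W β p ζ)

include H

theorem a₂_le : v W.a₂ ≤ 1 := H.a₂.le

theorem p_sq_lt_p : v (p : K) ^ 2 < v (p : K) := by
  rw [sq]
  calc v (p : K) * v (p : K) < v (p : K) * 1 := mul_lt_mul_of_pos_left H.cyc.lt H.cyc.p_pos
    _ = v (p : K) := mul_one _

theorem a₄_lt_p : v W.a₄ < v (p : K) := H.a₄.trans H.p_sq_lt_p

theorem a₄_lt_pi : v W.a₄ < v (ζ - 1) := H.a₄_lt_p.trans H.cyc.p_lt_pi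

theorem a₄_lt_one : v W.a₄ < 1 := H.a₄_lt_p.trans H.cyc.lt

theorem a₄_le : v W.a₄ ≤ 1 := H.a₄_lt_one.le

theorem val_beta : v β = 1 := by
  have h1 : v β ^ 2 = 1 := by rw [← map_pow, H.beta, H.a₂]
  exact (pow_eq_one_iff.mp h1).resolve_right two_ne_zero

theorem val_two_beta : v (2 * β) = 1 := by rw [map_mul, H.two, H.val_beta, one_mul]

theorem a₄_lt_pi_pow : v W.a₄ < v (ζ - 1) ^ p := by
  have hp1 : p = (p - 1) + 1 := by have := H.cyc.three; omega
  calc v W.a₄ < v (p : K) ^ 2 := H.a₄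
    _ = v (p : K) * v (p : K) := sq _
    _ < v (p : K) * v (ζ - 1) := mul_lt_mul_of_pos_left H.cyc.p_lt_pi H.cyc.p_pos
    _ = v (ζ - 1) ^ (p - 1) * v (ζ - 1) := by rw [H.cyc.cyc]
    _ = v (ζ - 1) ^ p := by rw [← pow_succ, ← hp1]

variable [DecidableEq K]

theorem inE1_nsmul {R : W.Point} (hR : InE1 v R) (k : ℕ) : InE1 v (k • R) :=
  (E1.mem_E1sub v H.leg H.a₂_le H.a₄_le).mp
    ((E1.E1sub v H.leg H.a₂_le H.a₄_le).nsmul_mem
      ((E1.mem_E1sub v H.leg H.a₂_le H.a₄_le).mpr hR) k)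

theorem inE1_add' {R R' : W.Point} (hR : InE1 v R) (hR' : InE1 v R') : InE1 v (R + R') :=
  inE1_add v H.leg H.a₂_le H.a₄_le hR hR'

/-- `φ (k • R) ≡ φ(R)^k` modulo `b`. -/
theorem val_phi_nsmul {R : W.Point} (hR : InE1 v R) (k : ℕ) :
    v (phi β (k • R) - phi β R ^ k) ≤ v W.a₄ := by
  induction k with
  | zero =>
    rw [zero_smul, phi_zero, pow_zero, sub_self, map_zero]
    exact zero_le
  | succ k ih =>
    have e : phi β ((k + 1) • R) - phi β R ^ (k + 1) =
        (phi β (k • R + R) - phi β (k • R) * phi β R)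
          + (phi β (k • R) - phi β R ^ k) * phi β R := by
      rw [succ_nsmul, pow_succ]
      ring
    rw [e]
    refine v.map_add_le (val_phi_add v H.leg H.a₂_le H.a₄_le H.beta (H.inE1_nsmul hR k) hR) ?_
    rw [map_mul, val_phi v H.leg H.a₂_le H.a₄_le H.beta hR, mul_one]
    exact ih

/-- `φ(R)^p ≡ 1` modulo `b` for `R ∈ E1[p]`. -/
theorem val_phi_pow_sub_one {R : W.Point} (hR : InE1 v R) (hpR : p • R = 0) :
    v (phi β R ^ p - 1) ≤ v W.a₄ := by
  have h := H.val_phi_nsmul hR p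
  rwa [hpR, phi_zero, Valuation.map_sub_swap] at h

/-- `φ(R)` is close to a `p`-th root of unity for `R ∈ E1[p]`. -/
theorem exists_near {R : W.Point} (hR : InE1 v R) (hpR : p • R = 0) :
    ∃ j : ℕ, v (phi β R - ζ ^ j) < v (ζ - 1) :=
  H.cyc.exists_near (lt_of_le_of_lt (H.val_phi_pow_sub_one hR hpR) H.a₄_lt_pi_pow)

/-- Additivity of the index. -/
theorem near_add {R R' : W.Point} (hR : InE1 v R) (hR' : InE1 v R') {j k : ℕ}
    (hj : v (phi β R - ζ ^ j) < v (ζ - 1)) (hk : v (phi β R' - ζ ^ k) < v (ζ - 1)) :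
    v (phi β (R + R') - ζ ^ (j + k)) < v (ζ - 1) := by
  have e : phi β (R + R') - ζ ^ (j + k) =
      (phi β (R + R') - phi β R * phi β R')
        + (phi β R * (phi β R' - ζ ^ k) + ζ ^ k * (phi β R - ζ ^ j)) := by
    rw [pow_add]
    ring
  rw [e]
  refine v.map_add_lt (lt_of_le_of_lt
    (val_phi_add v H.leg H.a₂_le H.a₄_le H.beta hR hR') H.a₄_lt_pi) (v.map_add_lt ?_ ?_)
  · rw [map_mul, val_phi v H.leg H.a₂_le H.a₄_le H.beta hR, one_mul]
    exact hk
  · rw [map_mul, H.cyc.val_zeta_pow, one_mul]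
    exact hj

theorem near_nsmul {R : W.Point} (hR : InE1 v R) {j : ℕ}
    (hj : v (phi β R - ζ ^ j) < v (ζ - 1)) (k : ℕ) :
    v (phi β (k • R) - ζ ^ (k * j)) < v (ζ - 1) := by
  induction k with
  | zero =>
    rw [zero_smul, phi_zero, zero_mul, pow_zero, sub_self, map_zero]
    exact H.cyc.pi_pos
  | succ k ih =>
    rw [succ_nsmul, Nat.succ_mul]
    exact H.near_add (H.inE1_nsmul hR k) hR ih hj

/-- Injectivity of the index: a point of `E1[p]` with `φ` close to `1` is zero. -/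
theorem eq_zero_of_near_one {R : W.Point} (hR : InE1 v R) (hpR : p • R = 0)
    (h : v (phi β R - 1) < v (ζ - 1)) : R = 0 := by
  have h1 := H.cyc.val_pow_sub_one h
  have h2 := H.val_phi_pow_sub_one hR hpR
  rw [h1, val_phi_sub_one v H.leg H.a₂_le H.a₄_le H.beta hR, H.val_two_beta, one_mul] at h2
  -- `v (z R) * v p ≤ v b < v p ^ 2`
  have h3 : v (E1.zCoord R) < v (p : K) := by
    by_contra hcon
    have hle : v (p : K) ≤ v (E1.zCoord R) := not_lt.mp hcon
    have : v (p : K) ^ 2 ≤ v W.a₄ := by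
      rw [sq]
      exact (mul_le_mul_left hle _).trans h2
    exact absurd H.a₄ (not_lt.mpr this)
  have hA₂ : W.a₂ ∈ v.valuationSubring := (Valuation.mem_valuationSubring_iff v _).mpr H.a₂_le
  have hA₄ : W.a₄ ∈ v.valuationSubring := (Valuation.mem_valuationSubring_iff v _).mpr H.a₄_le
  obtain ⟨-, c, hc, hz⟩ := E1.ker_nsmul v.valuationSubring H.leg.a₁ H.leg.a₃ H.leg.a₆ hA₂ hA₄
    ((E1.inKer_iff_inE1 v).mpr hR) p
  rw [hpR, E1.zCoord_zero] at hz
  have hcv : v c ≤ 1 := (Valuation.mem_valuationSubring_iff v _).mp hc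
  rcases R with _ | ⟨x, y, hxy⟩
  · rfl
  · exfalso
    have hE : LegEq W.a₂ W.a₄ x y := (H.leg.equation_iff x y).mp hxy.1
    obtain ⟨hx0, hy0, -, -, -⟩ := VE1.pt v H.a₂_le H.a₄_le hE hR
    have hz0 : x / y ≠ 0 := div_ne_zero hx0 hy0
    have hz' : (0 : K) = (p : K) * (x / y) + (x / y) ^ 2 * c := hz
    have hp' : (p : K) = -((x / y) * c) := by
      have h1 : (x / y) * ((p : K) + (x / y) * c) = 0 := by linear_combination -hz'
      have h2 := (mul_eq_zero.mp h1).resolve_left hz0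
      linear_combination h2
    have h4 : v (p : K) ≤ v (x / y) := by
      rw [hp', Valuation.map_neg, map_mul]
      calc v (x / y) * v c ≤ v (x / y) * 1 := mul_le_mul' le_rfl hcv
        _ = v (x / y) := mul_one _
    exact absurd h3 (not_lt.mpr h4)

/-- The parameter of a nonzero point of `E1[p]` has exactly the valuation of `ζ - 1`. -/
theorem val_zCoord {R : W.Point} (hR : InE1 v R) (hpR : p • R = 0) (hR0 : R ≠ 0) :
    v (E1.zCoord R) = v (ζ - 1) := by
  obtain ⟨j, hj⟩ := H.exists_near hR hpR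
  have hζj : ζ ^ j ≠ 1 := by
    intro h1
    rw [h1] at hj
    exact hR0 (H.eq_zero_of_near_one hR hpR hj)
  have h1 : v (ζ ^ j - 1) = v (ζ - 1) :=
    H.cyc.val_root_sub_one (by rw [← pow_mul, mul_comm, pow_mul, H.cyc.prim.pow_eq_one, one_pow]) hζj
  have e : phi β R - 1 = (phi β R - ζ ^ j) + (ζ ^ j - 1) := by ring
  have h2 : v (phi β R - 1) = v (ζ - 1) := by
    rw [e, ← h1]
    apply Valuation.map_add_eq_of_lt_right
    rw [h1]
    exact hj
  rwa [val_phi_sub_one v H.leg H.a₂_le H.a₄_le H.beta hR, H.val_two_beta, one_mul] at h2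

/-- Two points of `E1[p]` with the same index are equal. -/
theorem eq_of_near {R R' : W.Point} (hR : InE1 v R) (hpR : p • R = 0)
    (hR' : InE1 v R') (hpR' : p • R' = 0) {j j' : ℕ}
    (hj : v (phi β R - ζ ^ j) < v (ζ - 1)) (hj' : v (phi β R' - ζ ^ j') < v (ζ - 1))
    (hjj' : ζ ^ j = ζ ^ j') : R = R' := by
  have hp1 : p - 1 + 1 = p := Nat.sub_add_cancel H.cyc.prime.pos
  have hnear := H.near_add hR (H.inE1_nsmul hR' (p - 1)) hj (H.near_nsmul hR' hj' (p - 1))
  have e : ζ ^ (j + (p - 1) * j') = 1 := by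
    have e1 : j' + (p - 1) * j' = p * j' := by
      calc j' + (p - 1) * j' = (p - 1 + 1) * j' := by ring
        _ = p * j' := by rw [hp1]
    rw [pow_add, hjj', ← pow_add, e1, pow_mul, H.cyc.prim.pow_eq_one, one_pow]
  rw [e] at hnear
  have hsum : R + (p - 1) • R' = 0 := by
    refine H.eq_zero_of_near_one (H.inE1_add' hR (H.inE1_nsmul hR' (p - 1))) ?_ hnear
    rw [smul_add, hpR, zero_add, smul_comm, hpR', smul_zero]
  have h3 : R' + (p - 1) • R' = 0 := by
    have : R' + (p - 1) • R' = (p - 1 + 1) • R' := by rw [add_smul, one_smul, add_comm]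
    rw [this, hp1, hpR']
  have h4 : R = -((p - 1) • R') := eq_neg_of_add_eq_zero_left hsum
  have h5 : R' = -((p - 1) • R') := eq_neg_of_add_eq_zero_left h3
  rw [h4, ← h5]

/-- `E1[p]` is cyclic: every point is a multiple of any nonzero point. -/
theorem exists_nsmul_eq {R R' : W.Point} (hR : InE1 v R) (hpR : p • R = 0) (hR0 : R ≠ 0)
    (hR' : InE1 v R') (hpR' : p • R' = 0) : ∃ k : ℕ, R' = k • R := by
  obtain ⟨j, hj⟩ := H.exists_near hR hpR
  obtain ⟨j', hj'⟩ := H.exists_near hR' hpR'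
  have hpj : ¬ p ∣ j := by
    rintro ⟨m, rfl⟩
    rw [pow_mul, H.cyc.prim.pow_eq_one, one_pow] at hj
    exact hR0 (H.eq_zero_of_near_one hR hpR hj)
  have hcop : Nat.Coprime j p := ((Nat.Prime.coprime_iff_not_dvd H.cyc.prime).mpr hpj).symm
  obtain ⟨i, -, hi⟩ := Nat.exists_mul_mod_eq_one_of_coprime hcop H.cyc.prime.one_lt
  refine ⟨j' * i, H.eq_of_near hR' hpR' (H.inE1_nsmul hR _) ?_ hj' (H.near_nsmul hR hj (j' * i)) ?_⟩
  · rw [smul_comm, hpR, smul_zero]
  · have h1 : j * i = p * (j * i / p) + 1 := by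
      have := Nat.div_add_mod (j * i) p
      rw [hi] at this
      exact this.symm
    have e : j' * i * j = j' + p * (j' * (j * i / p)) := by
      calc j' * i * j = j' * (j * i) := by ring
        _ = j' * (p * (j * i / p) + 1) := by rw [← h1]
        _ = j' + p * (j' * (j * i / p)) := by ring
    rw [e, pow_add, pow_mul, H.cyc.prim.pow_eq_one, one_pow, mul_one]

end LocHyp

end Fermat.Agent.TR.ESide.Line
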