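/-
TR / E-side (helper68), part 2b: the cyclotomic hypotheses `CycHyp` hold for every valuation
with `v p < 1` and every primitive `p`-th root of unity (`p ≥ 3` prime).
-/
import Fermat.Agent.TR.ESide.Line.Tors

set_option autoImplicit false

namespace Fermat.Agent.TR.ESide.Line

variable {K : Type*} [Field K] {Γ₀ : Type*} [LinearOrderedCommGroupWithZero Γ₀]

/-- For `x` integral, `x ^ k - 1` is divisible by `x - 1`. -/
theorem val_pow_sub_one_le (v : Valuation K Γ₀) {x : K} (hx : v x ≤ 1) (k : ℕ) :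
    v (x ^ k - 1) ≤ v (x - 1) := by
  have h1 : x ^ k - 1 = (∑ i ∈ Finset.range k, x ^ i) * (x - 1) := by rw [geom_sum_mul]
  have h2 : v (∑ i ∈ Finset.range k, x ^ i) ≤ 1 := by
    refine Valuation.map_sum_le _ fun i _ => ?_
    rw [map_pow]
    exact pow_le_one' hx i
  rw [h1, map_mul]
  calc v (∑ i ∈ Finset.range k, x ^ i) * v (x - 1) ≤ 1 * v (x - 1) := mul_le_mul' h2 le_rfl
    _ = v (x - 1) := one_mul _

/-- The cyclotomic hypotheses. -/
theorem cycHyp_of_prim (v : Valuation K Γ₀) {p : ℕ} (hp : p.Prime) (hp3 : 3 ≤ p) {ζ : K}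
    (hζ : IsPrimitiveRoot ζ p) (hlt : v (p : K) < 1) : CycHyp v p ζ := by
  have hvζ : v ζ = 1 := by
    have h1 : v ζ ^ p = 1 := by rw [← map_pow, hζ.pow_eq_one, map_one]
    exact (pow_eq_one_iff.mp h1).resolve_right hp.ne_zero
  have hpow : ∀ m : ℕ, ¬ p ∣ m → v (ζ ^ m - 1) = v (ζ - 1) := by
    intro m hm
    apply le_antisymm (val_pow_sub_one_le v hvζ.le m)
    have hcop : Nat.Coprime m p := ((Nat.Prime.coprime_iff_not_dvd hp).mpr hm).symm
    obtain ⟨m', -, hm'⟩ := Nat.exists_mul_mod_eq_one_of_coprime hcop hp.one_lt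
    have hpow' : (ζ ^ m) ^ m' = ζ := by
      rw [← pow_mul, ← Nat.mod_add_div (m * m') p, hm', pow_add, pow_one, pow_mul,
        hζ.pow_eq_one, one_pow, mul_one]
    have h2 := val_pow_sub_one_le v (x := ζ ^ m) (by rw [map_pow, hvζ, one_pow]) m'
    rwa [hpow'] at h2
  refine ⟨hp, hp3, hζ, hpow, ?_, hlt⟩
  obtain ⟨n, rfl⟩ : ∃ n, p = n + 1 := ⟨p - 1, (Nat.sub_add_cancel hp.pos).symm⟩
  have h1 := hζ.prod_one_sub_pow_eq_order
  have h2 := congrArg v h1
  rw [map_prod] at h2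
  have h3 : ∀ k ∈ Finset.range n, v (1 - ζ ^ (k + 1)) = v (ζ - 1) := by
    intro k hk
    rw [Valuation.map_sub_swap]
    refine hpow (k + 1) fun hdvd => ?_
    have := Nat.le_of_dvd (Nat.succ_pos k) hdvd
    have := Finset.mem_range.mp hk
    omega
  rw [Finset.prod_congr rfl h3, Finset.prod_const, Finset.card_range] at h2
  have h4 : ((n + 1 : ℕ) : K) = (n : K) + 1 := by push_cast; ring
  rw [Nat.add_sub_cancel, h2, h4]

end Fermat.Agent.TR.ESide.Line
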