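/-
TR / E-side (helper68), part 3: the Galois action on `E1[p]`.

For an automorphism `σ` of `K/F` preserving the valuation and acting trivially on the residue
field, with `σ ζ = ζ ^ a`: `σ R = a • R` for every `R ∈ E1[p]` (the approximate character `φ`
is Galois-equivariant and the index map is injective).
-/
import Fermat.Agent.TR.ESide.Line.Tors

set_option autoImplicit false

namespace Fermat.Agent.TR.ESide.Line

open WeierstrassCurve WeierstrassCurve.Affine
open Fermat.Agent.S05

variable {F K : Type*} [Field F] [Field K] [Algebra F K] [DecidableEq K] {Γ₀ : Type*}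
  [LinearOrderedCommGroupWithZero Γ₀] (v : Valuation K Γ₀) (W₀ : Affine F)

omit [DecidableEq K] in
/-- An automorphism acting trivially on the residue field (residue characteristic `≠ 2`) fixes a
unit as soon as it fixes its square. -/
theorem fix_of_sq (σ : K ≃ₐ[F] K) (hσ : ∀ x : K, v x ≤ 1 → v (σ x - x) < 1) {β : K}
    (h2β : v (2 * β) = 1) (hβ : v β ≤ 1) (hsq : σ (β ^ 2) = β ^ 2) : σ β = β := by
  have h := hσ β hβ
  have e : (σ β - β) * (σ β + β) = 0 := by
    rw [map_pow] at hsq
    linear_combination hsq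
  rcases mul_eq_zero.mp e with h0 | h0
  · exact sub_eq_zero.mp h0
  · exfalso
    have e2 : σ β - β = -(2 * β) := by linear_combination h0
    rw [e2, Valuation.map_neg, h2β] at h
    exact lt_irrefl _ h

/-- `φ` is Galois-equivariant. -/
theorem phi_map (σ : K ≃ₐ[F] K) {β : K} (hσβ : σ β = β) (P : (W₀⁄K).Point) :
    phi β (Point.map (W' := W₀) σ.toAlgHom P) = σ (phi β P) := by
  rcases P with _ | ⟨x, y, h⟩
  · have h0 : (Point.zero : (W₀⁄K).Point) = 0 := rfl
    rw [h0, map_zero, phi_zero, map_one]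
  · rw [Point.map_some, phi_some, phi_some, map_div₀, map_sub, map_add, map_mul, hσβ]
    rfl

/-- The kernel of reduction is stable under valuation-preserving automorphisms. -/
theorem inE1_map (σ : K ≃ₐ[F] K) (hσv : ∀ x : K, v (σ x) = v x) {P : (W₀⁄K).Point}
    (hP : InE1 v P) : InE1 v (Point.map (W' := W₀) σ.toAlgHom P) := by
  rcases P with _ | ⟨x, y, h⟩
  · have h0 : (Point.zero : (W₀⁄K).Point) = 0 := rfl
    rw [h0, map_zero]
    trivial
  · rw [Point.map_some]
    show 1 < v (σ x)
    rw [hσv]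
    exact hP

/-- **The inertia acts on `E1[p]` through the cyclotomic character.** -/
theorem map_eq_nsmul {β : K} {p : ℕ} {ζ : K} (H : LocHyp v (W₀⁄K) β p ζ) (σ : K ≃ₐ[F] K)
    (hσ : ∀ x : K, v x ≤ 1 → v (σ x - x) < 1) (hσv : ∀ x : K, v (σ x) = v x)
    {a : ℕ} (hσζ : σ ζ = ζ ^ a) {R : (W₀⁄K).Point} (hR : InE1 v R) (hpR : p • R = 0) :
    Point.map (W' := W₀) σ.toAlgHom R = a • R := by
  have hσβ : σ β = β := by
    refine fix_of_sq v σ hσ H.val_two_beta H.val_beta.le ?_
    rw [H.beta]
    exact σ.commutes W₀.a₂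
  obtain ⟨j, hj⟩ := H.exists_near hR hpR
  have hR' := inE1_map v W₀ σ hσv hR
  have hpR' : p • Point.map (W' := W₀) σ.toAlgHom R = 0 := by
    rw [← map_nsmul, hpR, map_zero]
  have hj' : v (phi β (Point.map (W' := W₀) σ.toAlgHom R) - ζ ^ (a * j)) < v (ζ - 1) := by
    have e : phi β (Point.map (W' := W₀) σ.toAlgHom R) - ζ ^ (a * j) = σ (phi β R - ζ ^ j) := by
      rw [phi_map W₀ σ hσβ, map_sub, map_pow, hσζ, ← pow_mul]
    rw [e, hσv]
    exact hj
  exact H.eq_of_near hR' hpR' (H.inE1_nsmul hR a) (by rw [smul_comm, hpR, smul_zero]) hj'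
    (H.near_nsmul hR hj a) rfl

end Fermat.Agent.TR.ESide.Line
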