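/-
TR / E-side (helper68), part 4: **(E-ST)** for the Frey curve at `p ∣ a b c`.

`L_E := E[p] ∩ E1` (kernel of reduction of the integral Legendre model above `p`) is a subgroup
of order `p` of the `p`-torsion of the Frey curve such that the inertia group at `p` acts
trivially on `E[p] / L_E` and through the cyclotomic character on `L_E`.

The statements `frey_line_of` / `frey_est_of` take as hypothesis `HasE1Tors` the existence of a
nonzero point of `E1[p]` on the integral Legendre models; it is a theorem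
(`TR/ESide/ST/E0.lean`, `TR/ESide/E0Div.lean`) and is discharged in `Line/Est.lean`.
-/
import Fermat.Agent.TR.ESide.Line.Gal
import Fermat.Agent.TR.ESide.Line.Cyc
import Fermat.Agent.TR.ESide.FreyDeep
import Fermat.Agent.S13.LocP.IntModel
import Fermat.Agent.PT.G.DecompBasic

set_option autoImplicit false

namespace Fermat.Agent.TR.ESide.Line

open WeierstrassCurve WeierstrassCurve.Affine
open Fermat.Agent.S05 Fermat.Agent.S13.LocP

local notation "Qb" => AlgebraicClosure ℚ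

section Transfer

variable {K : Type*} [Field K] [DecidableEq K]

/-- The transfer `(x, y) ↦ (4 x + r, 8 y + 4 x)` is surjective. -/
theorem transfer_surjective {E W : Affine K} {r : K} (H : TransferLeg.Hyp E W r) :
    Function.Surjective (TransferLeg.hom H) := by
  intro R
  rcases R with _ | ⟨X, Y, hXY⟩
  · exact ⟨0, rfl⟩
  · have h4 := H.four_ne
    have h8 := H.eight_ne
    have h16 := H.sixteen_ne
    have h64 : (64 : K) ≠ 0 := by
      have h : (64 : K) = 8 * 8 := by norm_num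
      rw [h]; exact mul_ne_zero h8 h8
    set x : K := (X - r) / 4 with hx
    set y : K := (Y - 4 * x) / 8 with hy
    have eX : 4 * x + r = X := by rw [hx]; field_simp; ring
    have eY : 8 * y + 4 * x = Y := by rw [hy]; field_simp; ring
    have hW' := (H.hW.nonsingular_iff X Y).mp hXY
    have hEq : E.Equation x y := by
      rw [WeierstrassCurve.Affine.equation_iff, H.hE₁, H.hE₃, H.hE₆]
      have hL := hW'.1
      rw [LegEq, H.h₂, H.h₄, ← eX, ← eY] at hL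
      apply mul_left_cancel₀ h64
      linear_combination hL + H.h₆
    have hNs : E.Nonsingular x y := by
      rw [WeierstrassCurve.Affine.nonsingular_iff' (W := E) x y]
      refine ⟨hEq, ?_⟩
      rw [H.hE₁, H.hE₃]
      by_cases h2y : 2 * y + x = 0
      · left
        have h3 : 3 * X ^ 2 + 2 * W.a₂ * X + W.a₄ ≠ 0 := by
          rcases hW'.2 with h3 | h3
          · exact h3
          · exfalso
            apply h3
            rw [← eY]
            linear_combination 8 * h2y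
        intro h0
        apply h3
        rw [H.h₂, H.h₄, ← eX]
        linear_combination -16 * h0 + 8 * h2y
      · right
        intro h0
        apply h2y
        linear_combination h0
    refine ⟨Point.some x y hNs, ?_⟩
    rw [TransferLeg.hom_some]
    exact TransferLeg.some_congr eX eY _ _

/-- The transfer to the Legendre model as a bijective Galois-equivariant homomorphism. -/
theorem exists_equivariant_bijection [Algebra ℚ K] (E₀ W₀ : Affine ℚ) (r₀ : ℚ)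
    (hE₁ : E₀.a₁ = 1) (hE₃ : E₀.a₃ = 0) (hE₆ : E₀.a₆ = 0) (hW : IsLeg W₀)
    (h₂ : W₀.a₂ = 4 * E₀.a₂ + 1 - 3 * r₀)
    (h₄ : W₀.a₄ = 16 * E₀.a₄ - 2 * r₀ * (4 * E₀.a₂ + 1) + 3 * r₀ ^ 2)
    (h₆ : r₀ ^ 3 - (4 * E₀.a₂ + 1) * r₀ ^ 2 + 16 * E₀.a₄ * r₀ = 0)
    (h2 : (2 : K) ≠ 0) :
    ∃ φ : (E₀⁄K).Point →+ (W₀⁄K).Point, Function.Bijective φ ∧
      ∀ (σ : K ≃ₐ[ℚ] K) (R : (E₀⁄K).Point),
        φ (Point.map (W' := E₀) σ.toAlgHom R) = Point.map (W' := W₀) σ.toAlgHom (φ R) := by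
  have hWK : IsLeg (W₀⁄K) := LocalMult.isLeg_baseChange W₀ hW
  have H : TransferLeg.Hyp (E₀⁄K) (W₀⁄K) (algebraMap ℚ K r₀) :=
    ⟨by show algebraMap ℚ K E₀.a₁ = 1; rw [hE₁, map_one],
     by show algebraMap ℚ K E₀.a₃ = 0; rw [hE₃, map_zero],
     by show algebraMap ℚ K E₀.a₆ = 0; rw [hE₆, map_zero], hWK,
     by
      show algebraMap ℚ K W₀.a₂ = 4 * algebraMap ℚ K E₀.a₂ + 1 - 3 * algebraMap ℚ K r₀
      rw [h₂]; simp only [map_add, map_sub, map_mul, map_one, map_ofNat],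
     by
      show algebraMap ℚ K W₀.a₄ = 16 * algebraMap ℚ K E₀.a₄
        - 2 * algebraMap ℚ K r₀ * (4 * algebraMap ℚ K E₀.a₂ + 1) + 3 * algebraMap ℚ K r₀ ^ 2
      rw [h₄]; simp only [map_add, map_sub, map_mul, map_one, map_ofNat, map_pow],
     by
      show algebraMap ℚ K r₀ ^ 3 - (4 * algebraMap ℚ K E₀.a₂ + 1) * algebraMap ℚ K r₀ ^ 2
        + 16 * algebraMap ℚ K E₀.a₄ * algebraMap ℚ K r₀ = 0
      have := congrArg (algebraMap ℚ K) h₆
      simpa only [map_add, map_sub, map_mul, map_one, map_ofNat, map_pow, map_zero] using this,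
     h2⟩
  refine ⟨TransferLeg.hom H, ⟨TransferLeg.hom_injective H, transfer_surjective H⟩,
    fun σ R => ?_⟩
  rcases R with _ | ⟨x, y, h⟩
  · have h0 : (Point.zero : (E₀⁄K).Point) = 0 := rfl
    rw [h0, map_zero, map_zero, map_zero]
  · rw [TransferLeg.hom_some, Point.map_some, Point.map_some, TransferLeg.hom_some]
    apply TransferLeg.some_congr
    · simp only [map_add, map_mul, map_ofNat, AlgHom.commutes]
    · simp only [map_add, map_mul, map_ofNat]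

end Transfer

section Inertia

/-- Inertia preserves the valuation. -/
theorem inertia_val (A : ValuationSubring Qb) (σ : Qb ≃ₐ[ℚ] Qb)
    (hσ : σ ∈ A.inertiaSubgroupIn ℚ) (x : Qb) : A.valuation (σ x) = A.valuation x := by
  obtain ⟨g, -, rfl⟩ := hσ
  exact Fermat.Agent.PT.G.valuation_apply_eq_of_mem_decomp g.2 x

end Inertia

section Model

variable {Wℤ : WeierstrassCurve ℤ}

/-- The local hypotheses for an integer Legendre model with multiplicative reduction at `p`,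
`a₄ = t ^ p`. -/
theorem locHyp_int (hW : IsLeg (Wℤ.map (Int.castRingHom ℚ) : Affine ℚ)) {p : ℕ}
    (hp : p.Prime) (hp3 : 3 ≤ p) (h₂ : ¬ (p : ℤ) ∣ Wℤ.a₂) (h₄ : (p : ℤ) ∣ Wℤ.a₄) {t : ℤ}
    (ht : Wℤ.a₄ = t ^ p) (A : ValuationSubring Qb) (hA : A.LiesOverPrime p) {β ζ : Qb}
    (hβ : β ^ 2 = algebraMap ℚ Qb (Wℤ.map (Int.castRingHom ℚ) : Affine ℚ).a₂)
    (hζ : IsPrimitiveRoot ζ p) :
    LocHyp A.valuation ((Wℤ.map (Int.castRingHom ℚ) : Affine ℚ)⁄Qb) β p ζ := by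
  have hpA : A.valuation ((p : ℕ) : Qb) < 1 := by
    have : ((p : ℕ) : Qb) ∈ A.nonunits := hA
    rwa [ValuationSubring.mem_nonunits_iff] at this
  have hp2 : p ≠ 2 := by omega
  have hqi : Prime (p : ℤ) := Nat.prime_iff_prime_int.mp hp
  have hcyc := cycHyp_of_prim A.valuation hp hp3 hζ hpA
  refine ⟨LocalMult.isLeg_baseChange _ hW, ?_, ?_, hβ, val_two_eq_one hp hp2 A hpA, hcyc⟩
  · show A.valuation (algebraMap ℚ Qb (Wℤ.map (Int.castRingHom ℚ) : Affine ℚ).a₂) = 1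
    rw [algebraMap_map_a₂]
    exact val_intCast_eq_one A hp hpA h₂
  · show A.valuation (algebraMap ℚ Qb (Wℤ.map (Int.castRingHom ℚ) : Affine ℚ).a₄)
      < A.valuation ((p : ℕ) : Qb) ^ 2
    rw [algebraMap_map_a₄, ht]
    have hpt : (p : ℤ) ∣ t := hqi.dvd_of_dvd_pow (ht ▸ h₄)
    obtain ⟨s, rfl⟩ := hpt
    have hvt : A.valuation (((p : ℤ) * s : ℤ) : Qb) ≤ A.valuation ((p : ℕ) : Qb) := by
      push_cast
      rw [map_mul]
      calc A.valuation ((p : ℕ) : Qb) * A.valuation (s : Qb)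
          ≤ A.valuation ((p : ℕ) : Qb) * 1 := mul_le_mul' le_rfl (val_intCast_le_one A s)
        _ = A.valuation ((p : ℕ) : Qb) := mul_one _
    have hpos : 0 < A.valuation ((p : ℕ) : Qb) := hcyc.p_pos
    rw [Int.cast_pow, map_pow]
    calc A.valuation (((p : ℤ) * s : ℤ) : Qb) ^ p
        ≤ A.valuation ((p : ℕ) : Qb) ^ p := pow_le_pow_left₀ zero_le hvt p
      _ ≤ A.valuation ((p : ℕ) : Qb) ^ 3 := pow_le_pow_of_le_one zero_le hpA.le hp3
      _ = A.valuation ((p : ℕ) : Qb) ^ 2 * A.valuation ((p : ℕ) : Qb) := pow_succ _ 2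
      _ < A.valuation ((p : ℕ) : Qb) ^ 2 * 1 := mul_lt_mul_of_pos_left hpA (pow_pos hpos 2)
      _ = A.valuation ((p : ℕ) : Qb) ^ 2 := mul_one _

end Model

/-- The hypothesis discharged in `Line/Est.lean`: the integral Legendre models with
multiplicative reduction at `p` have a nonzero `p`-torsion point in the kernel of reduction. -/
def HasE1Tors (p : ℕ) (A : ValuationSubring Qb) : Prop :=
  ∀ (Wℤ : WeierstrassCurve ℤ) (t : ℤ), IsLeg (Wℤ.map (Int.castRingHom ℚ) : Affine ℚ) →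
    ¬ (p : ℤ) ∣ Wℤ.a₂ → (p : ℤ) ∣ Wℤ.a₄ → Wℤ.a₄ ≠ 0 → Wℤ.a₄ = t ^ p →
    ∃ R : ((Wℤ.map (Int.castRingHom ℚ) : Affine ℚ)⁄Qb).Point,
      R ≠ 0 ∧ p • R = 0 ∧ InE1 A.valuation R

/-- **(E-ST)** for the Frey curve at `p ∣ a b c`, given a nonzero point of `E1[p]`. -/
theorem frey_line_of (P : FreyPackage) (hpabc : (P.p : ℤ) ∣ P.a * P.b * P.c)
    (A : ValuationSubring Qb) (hA : A.LiesOverPrime P.p) (hE0 : HasE1Tors P.p A) :
    ∃ L_E : AddSubgroup ((P.freyCurve : Affine ℚ)⁄Qb).Point,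
      (∀ Q ∈ L_E, P.p • Q = 0) ∧ Nat.card L_E = P.p ∧
      (∀ σ ∈ A.inertiaSubgroupIn ℚ, ∀ Q : ((P.freyCurve : Affine ℚ)⁄Qb).Point, P.p • Q = 0 →
        Point.map (W' := P.freyCurve) σ.toAlgHom Q - Q ∈ L_E) ∧
      (∀ σ ∈ A.inertiaSubgroupIn ℚ, ∀ a : ℕ, (∀ μ : Qb, μ ^ P.p = 1 → σ μ = μ ^ a) →
        ∀ Q ∈ L_E, Point.map (W' := P.freyCurve) σ.toAlgHom Q = a • Q) := by
  classical
  have hp := P.pp
  have hp3 : 3 ≤ P.p := by have := P.hp5; omega
  have hp2 : P.p ≠ 2 := by omega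
  have : Fact P.p.Prime := ⟨hp⟩
  obtain ⟨Wℤ, r₀, t, x₀, hW, h₂eq, h₄eq, h₆, hna₂, hpa₄, ha₄0, hat, -, -⟩ :=
    Deep.frey_mult_model P hpabc
  obtain ⟨φ, hφbij, hφσ⟩ := exists_equivariant_bijection (K := Qb) (P.freyCurve : Affine ℚ)
    (Wℤ.map (Int.castRingHom ℚ) : Affine ℚ) r₀ rfl rfl rfl hW h₂eq h₄eq h₆ two_ne_zero
  obtain ⟨β, hβ⟩ := IsAlgClosed.exists_pow_nat_eq
    (algebraMap ℚ Qb (Wℤ.map (Int.castRingHom ℚ) : Affine ℚ).a₂) (n := 2) (by norm_num)
  have hne : NeZero P.p := ⟨hp.ne_zero⟩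
  have hne' : NeZero (P.p : Qb) := ⟨Nat.cast_ne_zero.mpr hp.ne_zero⟩
  obtain ⟨ζ, hζ⟩ := HasEnoughRootsOfUnity.exists_primitiveRoot Qb P.p
  have H := locHyp_int hW hp hp3 hna₂ hpa₄ hat A hA hβ hζ
  -- the subgroup
  let L_E : AddSubgroup ((P.freyCurve : Affine ℚ)⁄Qb).Point :=
    { carrier := {Q | P.p • Q = 0 ∧ InE1 A.valuation (φ Q)}
      zero_mem' := ⟨smul_zero _, by rw [map_zero]; trivial⟩
      add_mem' := fun {Q Q'} hQ hQ' => ⟨by rw [nsmul_add, hQ.1, hQ'.1, add_zero], by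
        rw [map_add]; exact H.inE1_add' hQ.2 hQ'.2⟩
      neg_mem' := fun {Q} hQ => ⟨by rw [neg_nsmul, hQ.1, neg_zero], by
        rw [map_neg]; exact inE1_neg A.valuation hQ.2⟩ }
  have hmem : ∀ Q, Q ∈ L_E ↔ P.p • Q = 0 ∧ InE1 A.valuation (φ Q) := fun Q => Iff.rfl
  -- a nonzero element
  obtain ⟨R₀, hR₀0, hpR₀, hR₀E⟩ := hE0 Wℤ t hW hna₂ hpa₄ ha₄0 hat
  obtain ⟨Q₀, rfl⟩ := hφbij.2 R₀
  have hQ₀0 : Q₀ ≠ 0 := by
    rintro rfl
    exact hR₀0 (map_zero φ)
  have hpQ₀ : P.p • Q₀ = 0 := by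
    apply hφbij.1
    rw [map_nsmul, hpR₀, map_zero]
  have hQ₀L : Q₀ ∈ L_E := (hmem Q₀).mpr ⟨hpQ₀, hR₀E⟩
  refine ⟨L_E, fun Q hQ => hQ.1, ?_, ?_, ?_⟩
  · -- cardinality
    have hLE : L_E = AddSubgroup.zmultiples Q₀ := by
      apply le_antisymm
      · intro Q hQ
        obtain ⟨k, hk⟩ := H.exists_nsmul_eq hR₀E hpR₀ hR₀0 hQ.2
          (by rw [← map_nsmul, hQ.1, map_zero])
        have hQk : Q = k • Q₀ := by
          apply hφbij.1
          rw [hk, map_nsmul]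
        rw [hQk]
        exact AddSubgroup.nsmul_mem _ (AddSubgroup.mem_zmultiples Q₀) k
      · rw [AddSubgroup.zmultiples_le]
        exact hQ₀L
    rw [hLE, Nat.card_zmultiples, addOrderOf_eq_prime hpQ₀ hQ₀0]
  · -- inertia acts trivially on the quotient
    intro σ hσ Q hQ
    refine (hmem _).mpr ⟨?_, ?_⟩
    · rw [nsmul_sub, ← map_nsmul, hQ, map_zero, sub_zero]
    · have h1 := sub_inE1_int_mult hW hp hp2 hna₂ hpa₄ ha₄0 hat A hA σ hσ (φ Q)
        (by rw [natCast_zsmul, ← map_nsmul, hQ, map_zero])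
      have h2 := inE1_neg A.valuation h1
      rw [neg_sub] at h2
      rw [map_sub, hφσ]
      exact h2
  · -- inertia acts through the cyclotomic character
    intro σ hσ a ha Q hQ
    apply hφbij.1
    rw [hφσ, map_nsmul]
    exact map_eq_nsmul A.valuation _ H σ (fun x hx => inertia_spec A σ hσ x hx)
      (inertia_val A σ hσ) (ha ζ hζ.pow_eq_one) hQ.2 (by rw [← map_nsmul, hQ.1, map_zero])

/-- **(E-ST)** in the vocabulary of the top seam (`TR.Top.TREst`): the same statement for the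
Prelude's `E[p]` (`EC.FreyV P`) with the Prelude's Galois action. -/
theorem frey_est_of (P : FreyPackage) (hpabc : (P.p : ℤ) ∣ P.a * P.b * P.c)
    (A : ValuationSubring Qb) (hA : A.LiesOverPrime P.p) (hE0 : HasE1Tors P.p A) :
    ∃ L : AddSubgroup (Fermat.Agent.EC.FreyV P), Nat.card L = P.p ∧
      (∀ σ ∈ A.inertiaSubgroupIn ℚ, ∀ x : Fermat.Agent.EC.FreyV P, σ • x - x ∈ L) ∧
      (∀ σ ∈ A.inertiaSubgroupIn ℚ, ∀ a : ℕ, (∀ μ : Qb, μ ^ P.p = 1 → σ μ = μ ^ a) →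
        ∀ x ∈ L, σ • x = a • x) := by
  obtain ⟨L_E, hLp, hcard, hquot, hcyc⟩ := frey_line_of P hpabc A hA hE0
  let ι : Fermat.Agent.EC.FreyV P →+ ((P.freyCurve : Affine ℚ)⁄Qb).Point :=
    (Submodule.torsionBy ℤ ((P.freyCurve : Affine ℚ)⁄Qb).Point (P.p : ℤ)).subtype.toAddMonoidHom
  refine ⟨L_E.comap ι, ?_, ?_, ?_⟩
  · refine (Nat.card_congr ?_).trans hcard
    exact
      { toFun := fun x => ⟨ι x.1, x.2⟩
        invFun := fun Q => ⟨⟨Q.1, Fermat.Agent.EC.mem_freyV P Q.1 (hLp Q.1 Q.2)⟩, Q.2⟩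
        left_inv := fun x => rfl
        right_inv := fun Q => rfl }
  · intro σ hσ x
    exact hquot σ hσ x.1 (Fermat.Agent.EC.freyV_nsmul_coe P x)
  · intro σ hσ a ha x hx
    apply Subtype.ext
    exact hcyc σ hσ a ha x.1 hx

end Fermat.Agent.TR.ESide.Line
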