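/-
TR / E-side (helper68), part 1: the approximate character on the kernel of reduction of a
Legendre-type curve `y² = x³ + a x² + b x` with multiplicative reduction.

For `β² = a` put `φ(x, y) = (y - β x) / (y + β x)` (`φ(O) = 1`).  If three points are collinear
on `y = l x + n` then `∏ (yᵢ - β xᵢ) = n (n² + b (l - β)²)`; consequently on the kernel of
reduction `E1` one has `φ(P + Q) ≡ φ(P) φ(Q)` modulo `b`.
-/
import Fermat.Agent.S05.Leg
import Fermat.Agent.S05.E1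
import Fermat.Agent.S05.VE1

set_option autoImplicit false

namespace Fermat.Agent.TR.ESide.Line

open WeierstrassCurve WeierstrassCurve.Affine
open Fermat.Agent.S05

section Algebra

variable {K : Type*} [Field K]

/-- The product of the `yᵢ - β xᵢ` over three collinear points. -/
theorem vieta_prod_sub {a b x₁ y₁ x₂ y₂ x₃ y₃ l n β : K}
    (hV : Vieta a b x₁ y₁ x₂ y₂ x₃ y₃ l n) (hβ : β ^ 2 = a) :
    (y₁ - β * x₁) * (y₂ - β * x₂) * (-y₃ - β * x₃) = n * (n ^ 2 + b * (l - β) ^ 2) := by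
  have h1 := hV.line₁; have h2 := hV.line₂; have h3 := hV.line₃
  have e1 := hV.e₁; have e2 := hV.e₂; have e3 := hV.e₃
  rw [h1, h2, h3]
  linear_combination (l - β) ^ 3 * e3 + (l - β) ^ 2 * n * e2 + (l - β) * n ^ 2 * e1
    + n ^ 2 * (l - β) * hβ

/-- The product of the `yᵢ + β xᵢ` over three collinear points. -/
theorem vieta_prod_add {a b x₁ y₁ x₂ y₂ x₃ y₃ l n β : K}
    (hV : Vieta a b x₁ y₁ x₂ y₂ x₃ y₃ l n) (hβ : β ^ 2 = a) :
    (y₁ + β * x₁) * (y₂ + β * x₂) * (-y₃ + β * x₃) = n * (n ^ 2 + b * (l + β) ^ 2) := by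
  have h := vieta_prod_sub (β := -β) hV (by rw [neg_sq, hβ])
  linear_combination h

/-- The algebra behind the approximate multiplicativity. -/
theorem phi_key {u₁ w₁ u₂ w₂ u₃ w₃ N Dm Dp : K} (hw₁ : w₁ ≠ 0) (hw₂ : w₂ ≠ 0) (hw₃ : w₃ ≠ 0)
    (hm : u₁ * u₂ * (-w₃) = N * Dm) (hp : w₁ * w₂ * (-u₃) = N * Dp) :
    (u₃ / w₃ - u₁ / w₁ * (u₂ / w₂)) * (N * Dp) = u₃ / w₃ * (N * (Dp - Dm)) := by
  have h1 : u₁ / w₁ * (u₂ / w₂) * (N * Dp) = u₃ / w₃ * (N * Dm) := by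
    rw [← hp, ← hm]
    field_simp
  linear_combination -h1

end Algebra

variable {K : Type*} [Field K] {Γ₀ : Type*} [LinearOrderedCommGroupWithZero Γ₀]
  (v : Valuation K Γ₀) {W : Affine K}

/-- The approximate character `φ = (y - β x) / (y + β x)`. -/
def phi (β : K) : W.Point → K
  | .zero => 1
  | .some x y _ => (y - β * x) / (y + β * x)

@[simp] theorem phi_zero (β : K) : phi β (0 : W.Point) = 1 := rfl

@[simp] theorem phi_some (β : K) {x y : K} (h : W.Nonsingular x y) :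
    phi β (Point.some x y h) = (y - β * x) / (y + β * x) := rfl

section E1

variable {a b β x y x₁ y₁ x₂ y₂ x₃ y₃ l n : K}

theorem val_beta_le (ha : v a ≤ 1) (hβ : β ^ 2 = a) : v β ≤ 1 := by
  by_contra h
  have h1 : 1 < v β := not_le.mp h
  have h2 : 1 < v β ^ 2 := one_lt_pow₀ h1 two_ne_zero
  rw [← map_pow, hβ] at h2
  exact absurd ha (not_le.mpr h2)

/-- On the kernel of reduction, `β x` is smaller than `y`. -/
theorem val_beta_mul_lt (ha : v a ≤ 1) (hb : v b ≤ 1) (hβ : β ^ 2 = a) (h : LegEq a b x y)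
    (hx : 1 < v x) : y ≠ 0 ∧ v (β * x) < v y := by
  obtain ⟨hx0, hy0, -, -, hz⟩ := VE1.pt v ha hb h hx
  refine ⟨hy0, ?_⟩
  have hvy : v y ≠ 0 := (Valuation.ne_zero_iff v).mpr hy0
  have e : β * x = β * (x / y) * y := by field_simp
  rw [e, map_mul, map_mul]
  calc v β * v (x / y) * v y < 1 * v y :=
        mul_lt_mul_of_pos_right
          (mul_lt_one_of_nonneg_of_lt_one_right (val_beta_le v ha hβ) zero_le hz)
          (zero_lt_iff.mpr hvy)
    _ = v y := one_mul _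

theorem val_y_sub (ha : v a ≤ 1) (hb : v b ≤ 1) (hβ : β ^ 2 = a) (h : LegEq a b x y)
    (hx : 1 < v x) : v (y - β * x) = v y :=
  Valuation.map_sub_eq_of_lt_left v (val_beta_mul_lt v ha hb hβ h hx).2

theorem val_y_add (ha : v a ≤ 1) (hb : v b ≤ 1) (hβ : β ^ 2 = a) (h : LegEq a b x y)
    (hx : 1 < v x) : v (y + β * x) = v y :=
  Valuation.map_add_eq_of_lt_left v (val_beta_mul_lt v ha hb hβ h hx).2

theorem y_add_ne_zero (ha : v a ≤ 1) (hb : v b ≤ 1) (hβ : β ^ 2 = a) (h : LegEq a b x y)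
    (hx : 1 < v x) : y + β * x ≠ 0 := by
  intro h0
  have h1 := val_y_add v ha hb hβ h hx
  rw [h0, map_zero] at h1
  exact (val_beta_mul_lt v ha hb hβ h hx).1 ((Valuation.zero_iff v).mp h1.symm)

theorem val_phi_coord (ha : v a ≤ 1) (hb : v b ≤ 1) (hβ : β ^ 2 = a) (h : LegEq a b x y)
    (hx : 1 < v x) : v ((y - β * x) / (y + β * x)) = 1 := by
  rw [map_div₀, val_y_sub v ha hb hβ h hx, val_y_add v ha hb hβ h hx]
  exact div_self ((Valuation.ne_zero_iff v).mpr (val_beta_mul_lt v ha hb hβ h hx).1)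

theorem val_phi_sub_one_coord (ha : v a ≤ 1) (hb : v b ≤ 1) (hβ : β ^ 2 = a)
    (h : LegEq a b x y) (hx : 1 < v x) :
    v ((y - β * x) / (y + β * x) - 1) = v (2 * β) * v (x / y) := by
  have hw := y_add_ne_zero v ha hb hβ h hx
  have hy0 := (val_beta_mul_lt v ha hb hβ h hx).1
  have e : (y - β * x) / (y + β * x) - 1 = -(2 * β * x) / (y + β * x) := by
    field_simp
    ring
  rw [e, map_div₀, Valuation.map_neg, val_y_add v ha hb hβ h hx, map_mul, map_div₀, mul_div_assoc]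

/-- Approximate multiplicativity of `φ` in the generic case, in coordinates. -/
theorem vieta_phi (ha : v a ≤ 1) (hb : v b ≤ 1) (hβ : β ^ 2 = a)
    (hV : Vieta a b x₁ y₁ x₂ y₂ x₃ y₃ l n) (h₁ : LegEq a b x₁ y₁) (h₂ : LegEq a b x₂ y₂)
    (hx₁ : 1 < v x₁) (hx₂ : 1 < v x₂) :
    v ((y₃ - β * x₃) / (y₃ + β * x₃)
      - (y₁ - β * x₁) / (y₁ + β * x₁) * ((y₂ - β * x₂) / (y₂ + β * x₂))) ≤ v b := by
  have hx₃ := vieta_E1_add v ha hb hV h₁ h₂ hx₁ hx₂
  have h₃ := hV.legEq₃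
  have hw₁ := y_add_ne_zero v ha hb hβ h₁ hx₁
  have hw₂ := y_add_ne_zero v ha hb hβ h₂ hx₂
  have hw₃ := y_add_ne_zero v ha hb hβ h₃ hx₃
  have hvβ := val_beta_le v ha hβ
  obtain ⟨-, -, -, hid₁, ht₁⟩ := VE1.pt v ha hb h₁ hx₁
  obtain ⟨-, -, -, hid₂, ht₂⟩ := VE1.pt v ha hb h₂ hx₂
  obtain ⟨hn0, hvn, -, ε, hvε, hL⟩ := VE1.core v ha hb hV h₁ h₂ hx₁ hx₂
  have hs : v (x₁ / y₁ + x₂ / y₂) < 1 := v.map_add_lt ht₁ ht₂
  have hvninv : v n⁻¹ < 1 := by
    rw [hvn]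
    exact mul_lt_one_of_nonneg_of_lt_one_right
      (mul_le_one' hs.le ht₁.le) zero_le ht₂
  have hvx2inv : v x₂⁻¹ = v (x₂ / y₂) ^ 2 := by
    rw [map_inv₀]
    exact (eq_inv_of_mul_eq_one_left hid₂).symm
  have hvL : v (l * n⁻¹) < 1 := by
    rw [hL]
    apply v.map_sub_lt
    · rw [map_mul, map_mul, hvε, mul_one]
      exact mul_lt_one_of_nonneg_of_lt_one_right hs.le zero_le ht₁
    · rw [hvx2inv]
      exact pow_lt_one₀ zero_le ht₂ two_ne_zero
  have hm : (y₁ - β * x₁) * (y₂ - β * x₂) * (-(y₃ + β * x₃)) = n * (n ^ 2 + b * (l - β) ^ 2) := by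
    have := vieta_prod_sub hV hβ
    linear_combination this
  have hp : (y₁ + β * x₁) * (y₂ + β * x₂) * (-(y₃ - β * x₃)) = n * (n ^ 2 + b * (l + β) ^ 2) := by
    have := vieta_prod_add hV hβ
    linear_combination this
  have key := phi_key hw₁ hw₂ hw₃ hm hp
  set X : K := (y₃ - β * x₃) / (y₃ + β * x₃)
      - (y₁ - β * x₁) / (y₁ + β * x₁) * ((y₂ - β * x₂) / (y₂ + β * x₂)) with hX
  have hn3 : n ^ 3 ≠ 0 := pow_ne_zero 3 hn0
  have e1 : n ^ 3 * (1 + b * ((l + β) * n⁻¹) ^ 2) = n * (n ^ 2 + b * (l + β) ^ 2) := by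
    field_simp
  have e2 : n ^ 3 * (b * (4 * β) * (l * n⁻¹) * n⁻¹) =
      n * ((n ^ 2 + b * (l + β) ^ 2) - (n ^ 2 + b * (l - β) ^ 2)) := by
    field_simp
    ring
  have key2 : X * (1 + b * ((l + β) * n⁻¹) ^ 2) =
      (y₃ - β * x₃) / (y₃ + β * x₃) * (b * (4 * β) * (l * n⁻¹) * n⁻¹) := by
    apply mul_left_cancel₀ hn3
    calc n ^ 3 * (X * (1 + b * ((l + β) * n⁻¹) ^ 2))
        = X * (n ^ 3 * (1 + b * ((l + β) * n⁻¹) ^ 2)) := by ring
      _ = X * (n * (n ^ 2 + b * (l + β) ^ 2)) := by rw [e1]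
      _ = (y₃ - β * x₃) / (y₃ + β * x₃) *
            (n * ((n ^ 2 + b * (l + β) ^ 2) - (n ^ 2 + b * (l - β) ^ 2))) := key
      _ = (y₃ - β * x₃) / (y₃ + β * x₃) * (n ^ 3 * (b * (4 * β) * (l * n⁻¹) * n⁻¹)) := by
          rw [e2]
      _ = n ^ 3 * ((y₃ - β * x₃) / (y₃ + β * x₃) * (b * (4 * β) * (l * n⁻¹) * n⁻¹)) := by ring
  have hu : v (1 + b * ((l + β) * n⁻¹) ^ 2) = 1 := by
    apply Valuation.map_one_add_of_lt
    have h1 : v ((l + β) * n⁻¹) < 1 := by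
      have : (l + β) * n⁻¹ = l * n⁻¹ + β * n⁻¹ := by ring
      rw [this]
      apply v.map_add_lt hvL
      rw [map_mul]
      exact mul_lt_one_of_nonneg_of_lt_one_right hvβ zero_le hvninv
    rw [map_mul, map_pow]
    exact mul_lt_one_of_nonneg_of_lt_one_right hb zero_le (pow_lt_one₀ zero_le h1 two_ne_zero)
  have h4 : v (4 * β) ≤ 1 := by
    have : (4 : K) = 2 * 2 := by norm_num
    rw [this, map_mul, map_mul]
    exact mul_le_one' (mul_le_one' (VE1.v_two_le_one v) (VE1.v_two_le_one v)) hvβ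
  have hval := congrArg v key2
  rw [map_mul, hu, mul_one, map_mul, val_phi_coord v ha hb hβ h₃ hx₃, one_mul, map_mul, map_mul,
    map_mul] at hval
  rw [hval]
  calc v b * v (4 * β) * v (l * n⁻¹) * v n⁻¹ ≤ v b * 1 * 1 * 1 :=
        mul_le_mul' (mul_le_mul' (mul_le_mul' le_rfl h4) hvL.le) hvninv.le
    _ = v b := by rw [mul_one, mul_one, mul_one]

end E1

section Points

variable [DecidableEq K]

omit [DecidableEq K] in
/-- `φ` is a unit on the kernel of reduction. -/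
theorem val_phi (hW : IsLeg W) (ha : v W.a₂ ≤ 1) (hb : v W.a₄ ≤ 1) {β : K}
    (hβ : β ^ 2 = W.a₂) {P : W.Point} (hP : InE1 v P) : v (phi β P) = 1 := by
  rcases P with _ | ⟨x, y, h⟩
  · exact v.map_one
  · exact val_phi_coord v ha hb hβ ((hW.equation_iff x y).mp h.1) hP

omit [DecidableEq K] in
/-- `φ - 1` is `2 β z` up to a unit on the kernel of reduction. -/
theorem val_phi_sub_one (hW : IsLeg W) (ha : v W.a₂ ≤ 1) (hb : v W.a₄ ≤ 1) {β : K}
    (hβ : β ^ 2 = W.a₂) {P : W.Point} (hP : InE1 v P) :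
    v (phi β P - 1) = v (2 * β) * v (E1.zCoord P) := by
  rcases P with _ | ⟨x, y, h⟩
  · show v ((1 : K) - 1) = v (2 * β) * v (0 : K)
    rw [sub_self, map_zero, mul_zero]
  · exact val_phi_sub_one_coord v ha hb hβ ((hW.equation_iff x y).mp h.1) hP

omit [DecidableEq K] in
/-- `φ (-P) = φ(P)⁻¹`. -/
theorem phi_neg (hW : IsLeg W) (β : K) (P : W.Point) : phi β (-P) = (phi β P)⁻¹ := by
  rcases P with _ | ⟨x, y, h⟩
  · show (1 : K) = 1⁻¹
    rw [inv_one]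
  · rw [hW.neg_some h, phi_some, phi_some, inv_div]
    have e1 : -y - β * x = -(y + β * x) := by ring
    have e2 : -y + β * x = -(y - β * x) := by ring
    rw [e1, e2, neg_div_neg_eq]

/-- **Approximate multiplicativity** of `φ` on the kernel of reduction. -/
theorem val_phi_add (hW : IsLeg W) (ha : v W.a₂ ≤ 1) (hb : v W.a₄ ≤ 1) {β : K}
    (hβ : β ^ 2 = W.a₂) {P Q : W.Point} (hP : InE1 v P) (hQ : InE1 v Q) :
    v (phi β (P + Q) - phi β P * phi β Q) ≤ v W.a₄ := by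
  rcases P with _ | ⟨x₁, y₁, h₁⟩
  · have h0 : (Point.zero : W.Point) = 0 := rfl
    rw [h0, zero_add, phi_zero, one_mul, sub_self, map_zero]
    exact zero_le
  rcases Q with _ | ⟨x₂, y₂, h₂⟩
  · have h0 : (Point.zero : W.Point) = 0 := rfl
    rw [h0, add_zero, phi_zero, mul_one, sub_self, map_zero]
    exact zero_le
  have hE₁ : LegEq W.a₂ W.a₄ x₁ y₁ := (hW.equation_iff x₁ y₁).mp h₁.1
  have hE₂ : LegEq W.a₂ W.a₄ x₂ y₂ := (hW.equation_iff x₂ y₂).mp h₂.1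
  have hx₁ : 1 < v x₁ := hP
  have hx₂ : 1 < v x₂ := hQ
  by_cases hne : x₁ = x₂ ∧ y₁ = -y₂
  · obtain ⟨rfl, rfl⟩ := hne
    have hsum : Point.some x₁ (-y₂) h₁ + Point.some x₁ y₂ h₂ = 0 := by
      have := hW.add_neg_eq_zero h₂ (hW.nonsingular_neg h₂)
      rw [add_comm]
      exact this
    have hw := y_add_ne_zero v ha hb hβ hE₂ hx₂
    have hw' := y_add_ne_zero v ha hb hβ hE₁ hx₁
    have hu : y₂ - β * x₁ ≠ 0 := by
      intro h0
      apply hw'
      linear_combination -h0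
    have e : (-y₂ - β * x₁) / (-y₂ + β * x₁) * ((y₂ - β * x₁) / (y₂ + β * x₁)) = 1 := by
      have e1 : -y₂ - β * x₁ = -(y₂ + β * x₁) := by ring
      have e2 : -y₂ + β * x₁ = -(y₂ - β * x₁) := by ring
      rw [e1, e2, neg_div_neg_eq]
      field_simp
    rw [hsum, phi_zero, phi_some, phi_some, e, sub_self, map_zero]
    exact zero_le
  · obtain ⟨l, n, x₃, y₃, h₃, hadd, hV⟩ := hW.add_vieta h₁ h₂ hne
    rw [hadd, phi_some, phi_some, phi_some]
    exact vieta_phi v ha hb hβ hV hE₁ hE₂ hx₁ hx₂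

end Points

end Fermat.Agent.TR.ESide.Line
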